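import Fermat.Agent.S41.Ihara.Final

/-!
# S41 / BlockIhara in the architect's closed-`Prop` shape `HIhara` (helper16)

`hIharaStmt` is the statement (5) of helper23's V7 interface (#1920), fully quantified; it is
`Ihara.Final.blockIhara` with the instance `NeZero q` coming from `Fact q.Prime`.
-/

set_option autoImplicit false

namespace Fermat.Agent.S41.Ihara.Block

open CongruenceSubgroup Matrix.SpecialLinearGroup
open Fermat.Agent.S29.Betti
open Fermat.Agent.S41.Degen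
open scoped MatrixGroups

noncomputable section

/-- the closed statement (5) `HIhara` of the V7 interface. -/
def HIharaStmt : Prop :=
  ∀ (p N q : ℕ) [Fact p.Prime] [Fact q.Prime], p ≠ 2 → 0 < N → ¬ q ∣ N → q ≠ p →
    ∀ (r : ℕ) [Fact r.Prime] (hrN : ¬ r ∣ N), ¬ r ∣ 2 * N * q →
      (∃ lam : ℤ, lam ^ 2 ≡ (r : ℤ) [ZMOD (N : ℤ)]) →
      ∀ c₁ c₂ : XMod N (ZMod p) (ZMod p),
        resAX N q (ZMod p) (ZMod p) c₁ + resBX N q (ZMod p) (ZMod p) c₂ = 0 →
        ∃ n : ℕ,
          ((heckeX hrN (ZMod p) (ZMod p) - (((r : ℤ) + 1 : ℤ) : ZMod p) •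
            (1 : Module.End (ZMod p) (XMod N (ZMod p) (ZMod p)))) ^ n) c₁ = 0 ∧
          ((heckeX hrN (ZMod p) (ZMod p) - (((r : ℤ) + 1 : ℤ) : ZMod p) •
            (1 : Module.End (ZMod p) (XMod N (ZMod p) (ZMod p)))) ^ n) c₂ = 0

/-- **BlockIhara**, closed form. -/
theorem hIharaStmt : HIharaStmt := by
  intro p N q _ hqF hp2 hN hqN hqp r _ hrN _ hlam c₁ c₂ h0
  obtain ⟨lam, hlam⟩ := hlam
  exact Final.blockIhara hqF.out hqN hN hqp hp2 hrN hlam c₁ c₂ h0

end

end Fermat.Agent.S41.Ihara.Block
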