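import Fermat.Agent.S41.Ihara.Final
import Fermat.Agent.S41.Betti.IharaInt

/-!
# S41 / BlockIhara in helper5's consumer shape `Betti.IharaInt.BlockIharaAt` (helper16)

`blockIharaAt` : `BlockIharaAt p N q r hrN` for `p` odd, `q ≠ p` prime, `q ∤ N`, `0 < N`, `r ∤ N`
prime, `r ≡ lam² (mod N)`; and `ihara_int` : the integral Ihara statement (= the `Ihara` argument of
`Count.Product.exists_new_eigenvector`) with all hypotheses discharged.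
-/

set_option autoImplicit false

namespace Fermat.Agent.S41.Ihara.At

open CongruenceSubgroup Matrix.SpecialLinearGroup
open Fermat.Agent.S29.Betti
open Fermat.Agent.S41.Degen
open Fermat.Agent.S41.Betti.IharaInt
open scoped MatrixGroups

noncomputable section

variable {N q r p : ℕ} [NeZero q] [Fact r.Prime] [Fact p.Prime]

/-- **BlockIhara** in the shape `Betti.IharaInt.BlockIharaAt`. -/
theorem blockIharaAt (hq : q.Prime) (hqN : ¬ q ∣ N) (hN : 0 < N) (hqp : q ≠ p) (hp2 : p ≠ 2)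
    (hrN : ¬ r ∣ N) {lam : ℤ} (hlam : lam ^ 2 ≡ (r : ℤ) [ZMOD N]) :
    BlockIharaAt p N q r hrN :=
  fun c₁ c₂ h0 =>
    Final.blockIhara hq hqN hN hqp hp2 hrN hlam c₁ c₂
      ((resAX_add_resBX_eq_zero_iff c₁ c₂).2 h0)

/-- **integral Ihara**, all hypotheses discharged: the `Ihara` argument of
`Count.Product.exists_new_eigenvector` with `rA := resAX N q ℤ ℤ`, `rB := resBX N q ℤ ℤ`,
`TX i0 := heckeX hrN ℤ ℤ`. -/
theorem ihara_int (hq : q.Prime) (hqN : ¬ q ∣ N) (hN : 0 < N) (hqp : q ≠ p) (hp2 : p ≠ 2)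
    (hrN : ¬ r ∣ N) {lam : ℤ} (hlam : lam ^ 2 ≡ (r : ℤ) [ZMOD N])
    (θ : ℤ) (hθ : ¬ (p : ℤ) ∣ θ - ((r : ℤ) + 1)) :
    ∀ x₁ x₂ : XMod N ℤ ℤ,
      (∃ z : XMod (N * q) ℤ ℤ, resAX N q ℤ ℤ x₁ + resBX N q ℤ ℤ x₂ = (p : ℤ) • z) →
      (∃ w : XMod N ℤ ℤ, heckeX hrN ℤ ℤ x₁ = θ • x₁ + (p : ℤ) • w) →
      (∃ w : XMod N ℤ ℤ, heckeX hrN ℤ ℤ x₂ = θ • x₂ + (p : ℤ) • w) →
      (∃ w : XMod N ℤ ℤ, x₁ = (p : ℤ) • w) ∧ (∃ w : XMod N ℤ ℤ, x₂ = (p : ℤ) • w) :=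
  ihara_int_of_block hrN (blockIharaAt hq hqN hN hqp hp2 hrN hlam) θ hθ

end

end Fermat.Agent.S41.Ihara.At
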