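import Fermat.Agent.S41.Ihara.Junction
import Fermat.Agent.S41.Menn.TransferSL2
import Fermat.Agent.S41.Menn.EisChar

/-!
# S41 / BlockIhara: the unconditional statement for primes `r` that are squares mod `N` (helper16)

Discharges the two hypotheses `HTransfer`, `HEis` of `Ihara/Junction.lean` from
* `Menn.TransferSL2.heckeHom_apply_of_mem_Gamma` (helper26) and
* `Menn.EisChar.heckeHom_eq_of_kills_Gamma` (helper28),
and states BlockIhara on `XMod N (ZMod p) (ZMod p)` for `p` odd, `q ≠ p` prime, `q ∤ N`, `r ∤ N`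
prime with `r ≡ lam² (mod N)`:

* `blockIhara` : nilpotent form (`hnil` of `Betti.RedP.noEigen_zsmul_of_nilpotent`);
* `blockIhara_noEigen` : no-eigenvector form (`hIh` of `Betti.RedP.ihara_int(_prod)`).
-/

set_option autoImplicit false

namespace Fermat.Agent.S41.Ihara.Final

open CongruenceSubgroup Matrix.SpecialLinearGroup
open ModularCurve.Period
open Fermat.Agent.S29.Betti
open Fermat.Agent.S41.Degen
open Fermat.Agent.S41.Ihara.Junction
open scoped MatrixGroups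

noncomputable section

/-- `HEis` holds unconditionally (helper28). -/
theorem hEis {N r : ℕ} [Fact r.Prime] (hrN : ¬ r ∣ N) (A : Type*) [AddCommGroup A] :
    HEis N r hrN A :=
  fun c hc hK => Menn.EisChar.heckeHom_eq_of_kills_Gamma hrN c hc hK

/-- `HTransfer` holds for `r` a square mod `N` and `A` of odd exponent `p` (helper26). -/
theorem hTransfer {N r : ℕ} [Fact r.Prime] (hrN : ¬ r ∣ N) {lam : ℤ}
    (hlam : lam ^ 2 ≡ (r : ℤ) [ZMOD N]) {p : ℕ} (hp : Odd p) {A : Type*} [AddCommGroup A]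
    (hpA : ∀ a : A, p • a = 0) : HTransfer N r hrN A :=
  fun c hc hAZ g hg =>
    Menn.TransferSL2.heckeHom_apply_of_mem_Gamma hrN hlam hp hpA c hc hAZ g hg

theorem zmod_nsmul_self (p : ℕ) (a : ZMod p) : p • a = 0 := by
  rw [nsmul_eq_mul, ZMod.natCast_self, zero_mul]

variable {N q r p : ℕ} [NeZero q] [Fact r.Prime] [Fact p.Prime]

/-- `HTransfer` over `ZMod p`, `p` an odd prime. -/
theorem hTransfer_zmod (hrN : ¬ r ∣ N) {lam : ℤ} (hlam : lam ^ 2 ≡ (r : ℤ) [ZMOD N])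
    (hp2 : p ≠ 2) : HTransfer N r hrN (ZMod p) :=
  hTransfer hrN hlam ((Fact.out : p.Prime).odd_of_ne_two hp2) (zmod_nsmul_self p)

/-- **BlockIhara** (nilpotent form, `n = 2`), unconditional for `r` a square mod `N`: exactly the
hypothesis `hnil` of `Betti.RedP.noEigen_zsmul_of_nilpotent` with `rA = resAX`, `rB = resBX`,
`f = heckeX`, `r₁ = r + 1`. -/
theorem blockIhara (hq : q.Prime) (hqN : ¬ q ∣ N) (hN : 0 < N) (hqp : q ≠ p) (hp2 : p ≠ 2)
    (hrN : ¬ r ∣ N) {lam : ℤ} (hlam : lam ^ 2 ≡ (r : ℤ) [ZMOD N])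
    (c₁ c₂ : XMod N (ZMod p) (ZMod p))
    (h0 : resAX N q (ZMod p) (ZMod p) c₁ + resBX N q (ZMod p) (ZMod p) c₂ = 0) :
    ∃ n : ℕ,
      ((heckeX hrN (ZMod p) (ZMod p) - (((r : ℤ) + 1 : ℤ) : ZMod p) •
          (1 : Module.End (ZMod p) (XMod N (ZMod p) (ZMod p)))) ^ n) c₁ = 0 ∧
      ((heckeX hrN (ZMod p) (ZMod p) - (((r : ℤ) + 1 : ℤ) : ZMod p) •
          (1 : Module.End (ZMod p) (XMod N (ZMod p) (ZMod p)))) ^ n) c₂ = 0 :=
  blockIhara_of hq hqN hN hqp hrN (hTransfer_zmod hrN hlam hp2) (hEis hrN (ZMod p)) c₁ c₂ h0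

/-- **BlockIhara** (no-eigenvector form), unconditional for `r` a square mod `N`: exactly the
hypothesis `hIh` of `Betti.RedP.ihara_int` / `ihara_int_prod` with
`resAp = (resAX N q (ZMod p) (ZMod p)).toAddMonoidHom`, `resBp = (resBX …).toAddMonoidHom`,
`Tp = (heckeX hrN (ZMod p) (ZMod p)).toAddMonoidHom`, for any integer `θ` with `p ∤ θ - (r+1)`. -/
theorem blockIhara_noEigen (hq : q.Prime) (hqN : ¬ q ∣ N) (hN : 0 < N) (hqp : q ≠ p)
    (hp2 : p ≠ 2) (hrN : ¬ r ∣ N) {lam : ℤ} (hlam : lam ^ 2 ≡ (r : ℤ) [ZMOD N])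
    (θ : ℤ) (hθ : ¬ (p : ℤ) ∣ θ - ((r : ℤ) + 1))
    (c₁ c₂ : XMod N (ZMod p) (ZMod p))
    (h0 : (resAX N q (ZMod p) (ZMod p)).toAddMonoidHom c₁ +
      (resBX N q (ZMod p) (ZMod p)).toAddMonoidHom c₂ = 0)
    (h₁ : (heckeX hrN (ZMod p) (ZMod p)).toAddMonoidHom c₁ = θ • c₁)
    (h₂ : (heckeX hrN (ZMod p) (ZMod p)).toAddMonoidHom c₂ = θ • c₂) :
    c₁ = 0 ∧ c₂ = 0 :=
  blockIhara_noEigen_of hq hqN hN hqp hrN (hTransfer_zmod hrN hlam hp2) (hEis hrN (ZMod p))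
    θ hθ c₁ c₂ h0 h₁ h₂

end

end Fermat.Agent.S41.Ihara.Final
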