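import Fermat.Agent.S41.Amalg.CentralDegen
import Fermat.Agent.S41.Betti.RedP

/-!
# S41 / BlockIhara: the final junction on the `XMod` side (helper16)

Inputs (all other seats' work):
* `(A_Z)` (`Amalg.CentralDegen.aZ_of_res`, helper22 + helper10 + helper3 + helper28): for
  `c₁, c₂` with `resA c₁ + resB c₂ = 0` both `c_i` are invariant under `SL(2,ℤ)`-conjugation on
  `Γ(N)`;
* `HTransfer` (helper26, `Menn/TransferSL2`): `(A_Z)` + parabolic ⟹ `(T_r c)(g) = (r+1) c(g)` for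
  `g ∈ Γ(N)` (`r` a square mod `N`);
* `HEis` (helper28, `Menn/EisChar`): parabolic + kills `Γ(N)` ⟹ `T_r c = (r+1) c`.

Output: `(T_r - (r+1))² c_i = 0` on `XMod N (ZMod p) (ZMod p)`, in the exact shape `hnil` of
`Betti.RedP.noEigen_zsmul_of_nilpotent`.  The two inputs `HTransfer`, `HEis` are hypotheses
here (closed `Prop`s); `Ihara/Final.lean` discharges them.
-/

set_option autoImplicit false

namespace Fermat.Agent.S41.Ihara.Junction

open CongruenceSubgroup Matrix.SpecialLinearGroup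
open ModularCurve.Period
open Fermat.Agent.S29.Betti
open Fermat.Agent.S41.Degen
open scoped MatrixGroups

noncomputable section

/-- `(A_Z)`: `c` is invariant under `SL(2,ℤ)`-conjugation on `Γ(N)` (helper26's `hA` shape). -/
def AZ {N : ℕ} {A : Type*} [AddCommGroup A] (c : Additive (Gamma0 N) →+ A) : Prop :=
  ∀ (x : SL(2, ℤ)) (k : Gamma0 N), (k : SL(2, ℤ)) ∈ Gamma N →
    ∀ h : x * (k : SL(2, ℤ)) * x⁻¹ ∈ Gamma0 N,
      c (Additive.ofMul ⟨x * (k : SL(2, ℤ)) * x⁻¹, h⟩) = c (Additive.ofMul k)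

/-- the transfer statement (helper26): on `Γ(N)`, `T_r = r + 1` for `(A_Z)`-invariant parabolic
characters. -/
def HTransfer (N r : ℕ) [Fact r.Prime] (hrN : ¬ r ∣ N) (A : Type*) [AddCommGroup A] : Prop :=
  ∀ c : Additive (Gamma0 N) →+ A, IsParabolicHom (Gamma0 N) c → AZ c →
    ∀ g : Gamma0 N, (g : SL(2, ℤ)) ∈ Gamma N →
      heckeHom hrN A c (Additive.ofMul g) = (r + 1) • c (Additive.ofMul g)

/-- the Eisenstein-character statement (helper28). -/
def HEis (N r : ℕ) [Fact r.Prime] (hrN : ¬ r ∣ N) (A : Type*) [AddCommGroup A] : Prop :=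
  ∀ c : Additive (Gamma0 N) →+ A, IsParabolicHom (Gamma0 N) c →
    (∀ γ : Gamma0 N, (γ : SL(2, ℤ)) ∈ Gamma N → c (Additive.ofMul γ) = 0) →
      heckeHom hrN A c = (r + 1) • c

section Basic

variable {N : ℕ} {A : Type*} [AddCommGroup A]

theorem isParabolicHom_of_isAdmChar {c : Additive (Gamma0 N) →+ A} (hc : IsAdmChar c) :
    IsParabolicHom (Gamma0 N) c := fun γ hγ => hc γ (Or.inl hγ)

theorem AZ.sub {c d : Additive (Gamma0 N) →+ A} (hc : AZ c) (hd : AZ d) : AZ (c - d) := by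
  intro x k hk h
  rw [AddMonoidHom.sub_apply, AddMonoidHom.sub_apply, hc x k hk h, hd x k hk h]

theorem AZ.nsmul {c : Additive (Gamma0 N) →+ A} (hc : AZ c) (n : ℕ) : AZ (n • c) := by
  intro x k hk h
  rw [AddMonoidHom.nsmul_apply, AddMonoidHom.nsmul_apply, hc x k hk h]

theorem isParabolicHom_sub {c d : Additive (Gamma0 N) →+ A} (hc : IsParabolicHom (Gamma0 N) c)
    (hd : IsParabolicHom (Gamma0 N) d) : IsParabolicHom (Gamma0 N) (c - d) := by
  intro γ hγ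
  rw [AddMonoidHom.sub_apply, hc γ hγ, hd γ hγ, sub_zero]

theorem isParabolicHom_nsmul {c : Additive (Gamma0 N) →+ A} (hc : IsParabolicHom (Gamma0 N) c)
    (n : ℕ) : IsParabolicHom (Gamma0 N) (n • c) := by
  intro γ hγ
  rw [AddMonoidHom.nsmul_apply, hc γ hγ, smul_zero]

end Basic

/-! ### `(T_r - (r+1))² = 0` on homs -/

section Homs

variable {N r : ℕ} [Fact r.Prime] (hrN : ¬ r ∣ N) {A : Type*} [AddCommGroup A]

include hrN in
/-- **core**: for an admissible `(A_Z)`-invariant character `c`, `c' := T_r c - (r+1) c` satisfies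
`T_r c' = (r+1) c'`. -/
theorem heckeHom_sub_eq (hTr : HTransfer N r hrN A) (hE : HEis N r hrN A)
    (c : Additive (Gamma0 N) →+ A) (hc : IsAdmChar c) (hAZ : AZ c) :
    heckeHom hrN A (heckeHom hrN A c - (r + 1) • c) =
      (r + 1) • (heckeHom hrN A c - (r + 1) • c) := by
  have hT : IsAdmChar (heckeHom hrN A c) := isAdmChar_heckeHom hrN hc
  apply hE
  · exact isParabolicHom_sub (isParabolicHom_of_isAdmChar hT)
      (isParabolicHom_nsmul (isParabolicHom_of_isAdmChar hc) _)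
  · intro γ hγ
    rw [AddMonoidHom.sub_apply, AddMonoidHom.nsmul_apply,
      hTr c (isParabolicHom_of_isAdmChar hc) hAZ γ hγ, sub_self]

end Homs

/-! ### the `XMod` form -/

section X

variable {N r p : ℕ} [Fact r.Prime] [Fact p.Prime] (hrN : ¬ r ∣ N)

/-- the operator `T_r - (r+1)` on `XMod N (ZMod p) (ZMod p)`. -/
abbrev opD : Module.End (ZMod p) (XMod N (ZMod p) (ZMod p)) :=
  heckeX hrN (ZMod p) (ZMod p) -
    (((r : ℤ) + 1 : ℤ) : ZMod p) • (1 : Module.End (ZMod p) (XMod N (ZMod p) (ZMod p)))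

theorem opD_coe (c : XMod N (ZMod p) (ZMod p)) :
    ((opD (p := p) hrN c : XMod N (ZMod p) (ZMod p)) : Additive (Gamma0 N) →+ ZMod p) =
      heckeHom hrN (ZMod p) c - (r + 1) • (c : Additive (Gamma0 N) →+ ZMod p) := by
  rw [opD, LinearMap.sub_apply, LinearMap.smul_apply, Module.End.one_apply,
    Submodule.coe_sub, heckeX_coe, Submodule.coe_smul]
  congr 1
  refine AddMonoidHom.ext fun γ => ?_
  rw [AddMonoidHom.smul_apply, AddMonoidHom.nsmul_apply, smul_eq_mul, nsmul_eq_mul]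
  push_cast
  ring

/-- **`(T_r - (r+1))² c = 0`** for an `(A_Z)`-invariant `c ∈ XMod`. -/
theorem opD_sq_eq_zero (hTr : HTransfer N r hrN (ZMod p)) (hE : HEis N r hrN (ZMod p))
    (c : XMod N (ZMod p) (ZMod p))
    (hAZ : AZ (c : Additive (Gamma0 N) →+ ZMod p)) :
    ((opD (p := p) hrN) ^ 2) c = 0 := by
  rw [pow_two, Module.End.mul_apply]
  apply Subtype.ext
  rw [opD_coe, opD_coe, heckeHom_sub_eq hrN hTr hE _ c.2 hAZ, sub_self]
  rfl

end X

/-! ### BlockIhara -/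

section Block

variable {N q r p : ℕ} [NeZero q] [Fact r.Prime] [Fact p.Prime]

/-- `(A_Z)` for both components of an element of `ker (resA + resB)` (helper22's
`CentralDegen.aZ_of_res`, unconditional). -/
theorem aZ_of_res (hq : q.Prime) (hqN : ¬ q ∣ N) (hN : 0 < N) (hqp : q ≠ p)
    (c₁ c₂ : Additive (Gamma0 N) →+ ZMod p) (hc₁ : IsAdmChar c₁)
    (h : resA N q (ZMod p) c₁ + resB N q (ZMod p) c₂ = 0) : AZ c₁ ∧ AZ c₂ := by
  have hA : Menn.GoodRepA q (N : ℤ) :=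
    Menn.NT_A2.goodRepA hq hN ((Nat.Prime.coprime_iff_not_dvd hq).mpr hqN)
  constructor
  · intro x k hk hmem
    exact (Amalg.CentralDegen.aZ_of_res hq hqN hN hqp hA c₁ c₂ hc₁ h x k hk).1
  · intro x k hk hmem
    exact (Amalg.CentralDegen.aZ_of_res hq hqN hN hqp hA c₁ c₂ hc₁ h x k hk).2

/-- **BlockIhara** (nilpotent form, `n = 2`), in the shape `hnil` of
`Betti.RedP.noEigen_zsmul_of_nilpotent` with `rA = resAX`, `rB = resBX`, `f = heckeX`,
`r₁ = r + 1`. -/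
theorem blockIhara_of (hq : q.Prime) (hqN : ¬ q ∣ N) (hN : 0 < N) (hqp : q ≠ p)
    (hrN : ¬ r ∣ N) (hTr : HTransfer N r hrN (ZMod p)) (hE : HEis N r hrN (ZMod p))
    (c₁ c₂ : XMod N (ZMod p) (ZMod p))
    (h0 : resAX N q (ZMod p) (ZMod p) c₁ + resBX N q (ZMod p) (ZMod p) c₂ = 0) :
    ∃ n : ℕ,
      ((heckeX hrN (ZMod p) (ZMod p) - (((r : ℤ) + 1 : ℤ) : ZMod p) •
          (1 : Module.End (ZMod p) (XMod N (ZMod p) (ZMod p)))) ^ n) c₁ = 0 ∧
      ((heckeX hrN (ZMod p) (ZMod p) - (((r : ℤ) + 1 : ℤ) : ZMod p) •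
          (1 : Module.End (ZMod p) (XMod N (ZMod p) (ZMod p)))) ^ n) c₂ = 0 := by
  have h0' : resA N q (ZMod p) (c₁ : Additive (Gamma0 N) →+ ZMod p) +
      resB N q (ZMod p) (c₂ : Additive (Gamma0 N) →+ ZMod p) = 0 := by
    have := congrArg (fun u : XMod (N * q) (ZMod p) (ZMod p) =>
      (u : Additive (Gamma0 (N * q)) →+ ZMod p)) h0
    simpa using this
  obtain ⟨h1, h2⟩ := aZ_of_res hq hqN hN hqp _ _ c₁.2 h0'
  exact ⟨2, opD_sq_eq_zero hrN hTr hE c₁ h1, opD_sq_eq_zero hrN hTr hE c₂ h2⟩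

/-- **BlockIhara** (no-eigenvector form): exactly the hypothesis `hIh` of
`Betti.RedP.ihara_int` / `ihara_int_prod` with `resAp = resAX`, `resBp = resBX`, `Tp = heckeX`
(as additive homs), for any integer `θ` with `p ∤ θ - (r+1)`. -/
theorem blockIhara_noEigen_of (hq : q.Prime) (hqN : ¬ q ∣ N) (hN : 0 < N) (hqp : q ≠ p)
    (hrN : ¬ r ∣ N) (hTr : HTransfer N r hrN (ZMod p)) (hE : HEis N r hrN (ZMod p))
    (θ : ℤ) (hθ : ¬ (p : ℤ) ∣ θ - ((r : ℤ) + 1))
    (c₁ c₂ : XMod N (ZMod p) (ZMod p))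
    (h0 : (resAX N q (ZMod p) (ZMod p)).toAddMonoidHom c₁ +
      (resBX N q (ZMod p) (ZMod p)).toAddMonoidHom c₂ = 0)
    (h₁ : (heckeX hrN (ZMod p) (ZMod p)).toAddMonoidHom c₁ = θ • c₁)
    (h₂ : (heckeX hrN (ZMod p) (ZMod p)).toAddMonoidHom c₂ = θ • c₂) :
    c₁ = 0 ∧ c₂ = 0 :=
  Betti.RedP.noEigen_zsmul_of_nilpotent p
    (resAX N q (ZMod p) (ZMod p)).toAddMonoidHom (resBX N q (ZMod p) (ZMod p)).toAddMonoidHom
    (heckeX hrN (ZMod p) (ZMod p)) ((r : ℤ) + 1) θ hθ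
    (fun d₁ d₂ h => blockIhara_of hq hqN hN hqp hrN hTr hE d₁ d₂ h) c₁ c₂ h0 h₁ h₂

end Block

end

end Fermat.Agent.S41.Ihara.Junction
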